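/-
LSb / Final / Tors (helper6).
From the abstract (U) (`NodalCtx.unipotentStatement`) to the torsion of `J₀(N)(ℚ̄)`:
`JZero N` IS `Pic0 ℚ̄ (modularFunctionFieldBar N)` and the Galois action is that of
`arithmeticGalois (modularFunctionFieldFull N) σ`, so an instance of `NodalDatum`/`NodalCtx` on
`F = modularFunctionFieldBar N` over a valuation ring `A ∣ q` for which `arithmeticGalois … σ` is
inertial gives `(σ - 1)² = 0` on the prime-to-`q` torsion of `JZero N`
(in the exact shape of lead's `UnipTors`).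
-/
import Fermat.Prelude.Def_ModularCurve_ArithmeticGalois
import Fermat.Prelude.Def_FLTPrelim_Ramification
import Fermat.Agent.LSb.Core.CechFinal

set_option autoImplicit false

noncomputable section

namespace Fermat.Agent.LSb

open AlgebraicCurve ModularCurve

/-- a prime power `p ^ m`, `p ≠ q`, is nonzero in the residue field of a valuation ring over `q` -/
theorem natCast_pow_residue_ne_zero {L : Type*} [Field L] {A : ValuationSubring L} {q : ℕ}
    (hA : A.LiesOverPrime q) {p : ℕ} (hp : p.Prime) (hq : q.Prime) (hqp : q ≠ p) (m : ℕ) :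
    ((p ^ m : ℕ) : IsLocalRing.ResidueField A) ≠ 0 := by
  -- `q = 0` in the residue field
  have hqA : (q : L) ∈ A := A.nonunits_le hA
  have hq0 : ((q : ℕ) : IsLocalRing.ResidueField A) = 0 := by
    have h1 : ((q : ℕ) : A) ∈ IsLocalRing.maximalIdeal A := by
      rw [← ValuationSubring.coe_mem_nonunits_iff]
      have hA' : (q : L) ∈ A.nonunits := hA
      simpa using hA'
    have h2 := (IsLocalRing.residue_eq_zero_iff ((q : ℕ) : A)).2 h1
    simpa using h2
  intro h
  rw [Nat.cast_pow] at h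
  have hp0 : ((p : ℕ) : IsLocalRing.ResidueField A) = 0 := pow_eq_zero_iff (by
    rintro rfl
    simp at h) |>.1 h
  -- Bezout
  have hcop : Nat.Coprime q p := (Nat.coprime_primes hq hp).2 hqp
  have hb := Nat.Coprime.gcd_eq_one hcop
  have hbez := Nat.gcd_eq_gcd_ab q p
  rw [hb] at hbez
  have h1 : ((1 : ℤ) : IsLocalRing.ResidueField A) =
      ((q : ℤ) : IsLocalRing.ResidueField A) * ((Nat.gcdA q p : ℤ) : IsLocalRing.ResidueField A) +
        ((p : ℤ) : IsLocalRing.ResidueField A) * ((Nat.gcdB q p : ℤ) : IsLocalRing.ResidueField A) := by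
    have := congrArg (fun z : ℤ => (z : IsLocalRing.ResidueField A)) hbez
    simpa using this
  rw [Int.cast_natCast, Int.cast_natCast, hq0, hp0, zero_mul, zero_mul, add_zero, Int.cast_one]
    at h1
  exact one_ne_zero h1

variable {N : ℕ} {A : ValuationSubring (AlgebraicClosure ℚ)}
variable {F₁ F₂ : Type*} [Field F₁] [Field F₂]
variable [Algebra (IsLocalRing.ResidueField A) F₁] [Algebra (IsLocalRing.ResidueField A) F₂]

/-- **(U) on the torsion of `J₀(N)(ℚ̄)`** from an instance of the nodal datum at level `N`. -/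
theorem NodalCtx.jZero_unipotent {D : NodalDatum A (modularFunctionFieldBar N) F₁ F₂}
    {g g₁ g₂ : ℕ} (C : NodalCtx D g g₁ g₂)
    (σ : AlgebraicClosure ℚ ≃ₐ[ℚ] AlgebraicClosure ℚ)
    (hσ : D.IsInertial (arithmeticGalois (modularFunctionFieldFull N) σ))
    (n : ℕ) (hn : (n : IsLocalRing.ResidueField A) ≠ 0) (x : JZero N)
    (hx : x ∈ Submodule.torsionBy ℤ (JZero N) (n : ℤ)) :
    σ • σ • x - (σ • x + σ • x) + x = 0 := by
  have hx' : n • x = 0 := by
    have := (Submodule.mem_torsionBy_iff _ _).1 hx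
    simpa using this
  have h := C.unipotentStatement (arithmeticGalois (modularFunctionFieldFull N) σ) hσ n hn x hx'
  rw [← galois_smul_pic0_def, ← galois_smul_pic0_def] at h
  rw [smul_sub] at h
  have h2 : σ • σ • x - σ • x - (σ • x - x) = 0 := sub_eq_zero.2 h
  rw [← h2]
  abel

/-- The INSTANCE contract at level `N` and a valuation ring `A` of `ℚ̄`: a nodal datum on
`modularFunctionFieldBar N` satisfying `NodalCtx` for which all inertia elements are inertial. -/
def HasNodalInstance (N : ℕ) (A : ValuationSubring (AlgebraicClosure ℚ)) : Prop :=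
  ∃ (F₁ F₂ : Type) (_ : Field F₁) (_ : Field F₂) (_ : Algebra (IsLocalRing.ResidueField A) F₁)
    (_ : Algebra (IsLocalRing.ResidueField A) F₂)
    (D : NodalDatum A (modularFunctionFieldBar N) F₁ F₂) (g g₁ g₂ : ℕ),
    NodalCtx D g g₁ g₂ ∧
      ∀ σ ∈ A.inertiaSubgroupIn ℚ, D.IsInertial (arithmeticGalois (modularFunctionFieldFull N) σ)

/-- **`UnipTors N p`** (lead's interface to B7, unfolded) from the instance contract. -/
theorem unipTors_of_hasNodalInstance (N p : ℕ) (hp : p.Prime)
    (H : ∀ q : ℕ, q.Prime → q ≠ p → q ∣ N → ¬ q ^ 2 ∣ N →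
      ∀ A : ValuationSubring (AlgebraicClosure ℚ), A.LiesOverPrime q → HasNodalInstance N A) :
    ∀ q : ℕ, q.Prime → q ≠ p → q ∣ N → ¬ q ^ 2 ∣ N →
      ∀ A : ValuationSubring (AlgebraicClosure ℚ), A.LiesOverPrime q →
        ∀ σ ∈ A.inertiaSubgroupIn ℚ, ∀ (m : ℕ) (x : JZero N),
          x ∈ Submodule.torsionBy ℤ (JZero N) ((p ^ m : ℕ) : ℤ) →
            σ • σ • x - (σ • x + σ • x) + x = 0 := by
  intro q hq hqp hqN hq2 A hA σ hσ m x hx
  obtain ⟨F₁, F₂, _, _, _, _, D, g, g₁, g₂, C, hI⟩ := H q hq hqp hqN hq2 A hA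
  exact C.jZero_unipotent σ (hI σ hσ) (p ^ m) (natCast_pow_residue_ne_zero hA hp hq hqp m) x hx

end Fermat.Agent.LSb
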